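/-
S56 / block ORD (architect helper278): DEFINITIONS.

Target: `OrdStatement` of `S56/Interface.lean`.  Mathematics: over `k[ε]` (where `p = 0`) a strict
ordinary lift with cyclotomic determinant has, on the decomposition group `D` at `p`, the shape
`(ω z, * ; 0, z)` with `z = ± 1 ∈ k`.  After a coboundary the cocycle takes on `D` its values in
`Fil¹ = Hom(V/L, L) = k · Nmat e` (`e` a generator of the residual line `L`), on which `D` acts
through `ω`.  So `L_p := im (H¹_p(Fil¹) → H¹_p(ad⁰))`, and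
`#L_p · #H⁰_p(ad⁰/Fil¹) ≤ #H¹_p(Fil¹) · #H⁰_p(ad⁰)`, `#H⁰_p(ad⁰/Fil¹) ≥ |k|`,
`#H¹_p(Fil¹) ≤ |k|²` (devissage to `#H¹_p(μ_p) = p²`, Kummer theory).
Only definitions.
-/
import Fermat.Agent.S56.Interface
import Fermat.Agent.S55.Arith.LocInterface

set_option autoImplicit false

namespace Fermat.Agent.S56.Ord

open Fermat.Agent.S55
open Fermat.Agent.S53 (M2 Gal)

variable {k : Type} [Field k]

/-- `σ` acts on `μ_p` as the `a`-th power. -/
def ActsPow (p : ℕ) (σ : Gal) (a : ℕ) : Prop :=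
  ∀ μ : AlgebraicClosure ℚ, μ ^ p = 1 → σ μ = μ ^ a

/-- The nilpotent matrix `v ↦ det(e, v) e`: a generator of `Hom(V/ke, ke)`. -/
def Nmat (e : Fin 2 → k) : M2 k :=
  !![-(e 0 * e 1), e 0 * e 0; -(e 1 * e 1), e 0 * e 1]

/-- `g e = x e` and `g ≡ z` modulo `e`. -/
structure IsFlag (g : M2 k) (e : Fin 2 → k) (x z : k) : Prop where
  line : g.mulVec e = x • e
  quot : ∀ v : Fin 2 → k, ∃ t : k, g.mulVec v - z • v = t • e

/-- `e` spans a strict ordinary line of `s` at the place `P` over `p`. -/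
structure IsOrdLine (p : ℕ) (P : ValuationSubring (AlgebraicClosure ℚ)) (s : Gal →* M2 k)
    (e : Fin 2 → k) : Prop where
  ne : e ≠ 0
  iner : ∀ σ ∈ P.inertiaSubgroupIn ℚ, ∀ v : Fin 2 → k, ∃ t : k, (s σ).mulVec v - v = t • e
  dec : ∀ σ ∈ P.decompositionSubgroup ℚ, ∀ a : ℕ, ActsPow p σ a →
    ∃ z : k, z * z = 1 ∧ IsFlag (s σ) e ((a : k) * z) z

/-- The line `k · N` of `ad⁰`, as a module under the local Galois group at `q`. -/
def filSub (q : Nat.Primes) (s : Gal →* M2 k) (N : M2 k)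
    (hN : ∀ g : Gv q, ∃ u : k, s (ιv q g) * N * s (ιv q g)⁻¹ = u • N) :
    GSub (Gv q) (ResMod (ιv q) (Ad0 s)) where
  carrier := {m | ∃ t : k, ((ResMod.toRes (ιv q)).symm m).mat = t • N}
  zero_mem' := ⟨0, by rw [map_zero, zero_smul]; rfl⟩
  add_mem' := by
    rintro a b ⟨t, ht⟩ ⟨t', ht'⟩
    exact ⟨t + t', by rw [map_add, Ad0.mat_add, ht, ht', add_smul]⟩
  neg_mem' := by
    rintro a ⟨t, ht⟩
    exact ⟨-t, by rw [map_neg, Ad0.mat_neg, ht, neg_smul]⟩
  smul_mem' := by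
    rintro g a ⟨t, ht⟩
    obtain ⟨u, hu⟩ := hN g
    refine ⟨t * u, ?_⟩
    change s (ιv q g) * ((ResMod.toRes (ιv q)).symm a).mat * s (ιv q g)⁻¹ = _
    rw [ht, Matrix.mul_smul, Matrix.smul_mul, hu, smul_smul]

theorem mem_filSub {q : Nat.Primes} {s : Gal →* M2 k} {N : M2 k}
    {hN : ∀ g : Gv q, ∃ u : k, s (ιv q g) * N * s (ιv q g)⁻¹ = u • N}
    {m : ResMod (ιv q) (Ad0 s)} :
    m ∈ (filSub q s N hN).toAddSubgroup ↔
      ∃ t : k, ((ResMod.toRes (ιv q)).symm m).mat = t • N := Iff.rfl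

end Fermat.Agent.S56.Ord
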