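/-
S56 / ORD, node CARD (assembly of COH-COUNT, COH-ISOTYPIC, ARITH-MUH1, FIL-*).
`L := im (H¹_p(Fil¹) → H¹_p(ad⁰))` is finite and `#L ≤ |k| · #H⁰_p(ad⁰)`.
-/
import Fermat.Agent.S56.Ord.Coh.Count
import Fermat.Agent.S56.Ord.Coh.Isotypic
import Fermat.Agent.S56.Ord.Coh.FixLoc
import Fermat.Agent.S56.Ord.Arith.MuH1
import Fermat.Agent.S56.Ord.Fil.Card
import Fermat.Agent.S56.Ord.Fil.QuotInv
import Fermat.Agent.S55.Bridge.MuCoef

set_option autoImplicit false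

namespace Fermat.Agent.S56.Ord

open Fermat.Agent.S55
open Fermat.Agent.S53 (M2 Gal)

variable {k : Type} [Field k]

/-- `#H¹_p(Fil¹) ≤ |k|²`. -/
theorem card_H1_fil_le [Finite k] {p : Nat.Primes} [CharP k p] (hp2 : (p : ℕ) ≠ 2)
    {s : Gal →* M2 k} [Smooth lvlAll (Ad0 s)] {e : Fin 2 → k} (h : IsOrdLine p (plc p) s e) :
    Finite (Hsm (lvlLoc p) (filSub p s (Nmat e) (filSub_stable h)).Mod 1) ∧
      Nat.card (Hsm (lvlLoc p) (filSub p s (Nmat e) (filSub_stable h)).Mod 1) ≤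
        Nat.card k ^ 2 := by
  haveI : Fact (p : ℕ).Prime := ⟨p.2⟩
  haveI : Fintype k := Fintype.ofFinite k
  obtain ⟨d, -, hd⟩ := FiniteField.card k (p : ℕ)
  have hk : Nat.card k = (p : ℕ) ^ (d : ℕ) := by rw [Nat.card_eq_fintype_card, hd]
  have hZ : Nat.card (ResMod (ιv p) (Mu p)) = (p : ℕ) := Bridge.cardMu (p : ℕ)
  have hmu := card_H1_mu p hp2
  have key := card_H1_le_of_isotypic (lvlLoc p) (p : ℕ) p.2 (ResMod (ιv p) (Mu p)) hZ
    ((p : ℕ) ^ 2) hmu.1 (le_of_eq hmu.2) (d : ℕ)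
    (filSub p s (Nmat e) (filSub_stable h)).Mod
    (fun x => nsmul_filSub (p : ℕ) p s (Nmat e) (filSub_stable h) x)
    (fun g a ha x => filSub_scalar h g a ha x)
    (by rw [card_filSub p s (Nmat e) (filSub_stable h) (Nmat_ne_zero h.ne) (trace_Nmat e), hk])
  refine ⟨key.1, key.2.trans (le_of_eq ?_)⟩
  rw [hk, ← pow_mul, ← pow_mul, mul_comm]

theorem card_range_fil_le [Finite k] {p : Nat.Primes} [CharP k p] (hp2 : (p : ℕ) ≠ 2)
    {s : Gal →* M2 k} [Smooth lvlAll (Ad0 s)] {e : Fin 2 → k} (h : IsOrdLine p (plc p) s e) :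
    Finite (Hsm.map (𝓝 := lvlLoc p) (filSub p s (Nmat e) (filSub_stable h)).inclG 1).range ∧
      Nat.card (Hsm.map (𝓝 := lvlLoc p) (filSub p s (Nmat e) (filSub_stable h)).inclG 1).range ≤
        Nat.card k * Nat.card (fixLoc (Ad0 s) p) := by
  obtain ⟨hfin, hle⟩ := card_H1_fil_le hp2 h
  have hA : Finite (ResMod (ιv p) (Ad0 s)) := inferInstanceAs (Finite (Ad0 s))
  have hQ : Finite (filSub p s (Nmat e) (filSub_stable h)).Quot :=
    Finite.of_surjective _ (filSub p s (Nmat e) (filSub_stable h)).proj_surjective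
  have h0A : Finite (Hsm (lvlLoc p) (ResMod (ιv p) (Ad0 s)) 0) := finite_H0 _ _
  have h0Q : Finite (Hsm (lvlLoc p) (filSub p s (Nmat e) (filSub_stable h)).Quot 0) :=
    finite_H0 _ _
  have hr : Finite (Hsm.map (𝓝 := lvlLoc p)
      (filSub p s (Nmat e) (filSub_stable h)).inclG 1).range :=
    Finite.of_surjective _ (AddMonoidHom.rangeRestrict_surjective
      (Hsm.map (𝓝 := lvlLoc p) (filSub p s (Nmat e) (filSub_stable h)).inclG 1))
  refine ⟨hr, ?_⟩
  have h1 := card_range_mul_le (𝓝 := lvlLoc p)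
    (shortExact_gsub (filSub p s (Nmat e) (filSub_stable h)))
  have h2 := card_le_H0_quot h
  have h3 : Nat.card (Hsm (lvlLoc p) (ResMod (ιv p) (Ad0 s)) 0) = Nat.card (fixLoc (Ad0 s) p) :=
    card_H0_eq_fixLoc p (Ad0 s)
  rw [h3] at h1
  have hkpos : 0 < Nat.card k := Nat.card_pos
  refine Nat.le_of_mul_le_mul_right ?_ hkpos
  calc Nat.card (Hsm.map (𝓝 := lvlLoc p)
          (filSub p s (Nmat e) (filSub_stable h)).inclG 1).range * Nat.card k
      ≤ Nat.card (Hsm.map (𝓝 := lvlLoc p)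
          (filSub p s (Nmat e) (filSub_stable h)).inclG 1).range *
          Nat.card (Hsm (lvlLoc p) (filSub p s (Nmat e) (filSub_stable h)).Quot 0) :=
        Nat.mul_le_mul_left _ h2
    _ ≤ Nat.card (Hsm (lvlLoc p) (filSub p s (Nmat e) (filSub_stable h)).Mod 1) *
          Nat.card (fixLoc (Ad0 s) p) := h1
    _ ≤ Nat.card k ^ 2 * Nat.card (fixLoc (Ad0 s) p) := Nat.mul_le_mul_right _ hle
    _ = Nat.card k * Nat.card (fixLoc (Ad0 s) p) * Nat.card k := by ring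

end Fermat.Agent.S56.Ord
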