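/-
S56 / ORD, node LINE (assembly of DUAL-DATA, MAT-FLAG).  A strict ordinary lift `(1 + ε c) s` with
cyclotomic determinant: `s` has an ordinary line `k e` and, up to the coboundary of a trace zero
matrix, `c` takes on the decomposition group its values in `k · Nmat e`.
-/
import Fermat.Agent.S56.Ord.Dual.Data
import Fermat.Agent.S56.Ord.Mat.Flag
import Fermat.Agent.S56.Ord.Arith.Roots

set_option autoImplicit false

namespace Fermat.Agent.S56.Ord

open IsLocalRing Fermat.Agent.S53 Fermat.Agent.S53.Tangent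

variable {𝒪 : Type} [CommRing 𝒪] [IsLocalRing 𝒪]

theorem exists_line_and_cob (p : ℕ) [Fact p.Prime] [CharP (ResidueField 𝒪) p] (hp2 : p ≠ 2)
    (s : Gal →* M2 (ResidueField 𝒪)) (c : Gal → M2 (ResidueField 𝒪))
    (r : Gal →* M2 (Dk 𝒪)) (hr : MatCont r) (hrc : ∀ g, r g = dmat (s g) (c g * s g))
    (hdet : (toAdic r hr).DetIsCyclotomic p) (hso : (toAdic r hr).IsStrictOrdinaryAt p)
    (P : ValuationSubring (AlgebraicClosure ℚ)) (hP : P.LiesOverPrime p) :
    ∃ e : Fin 2 → ResidueField 𝒪, IsOrdLine p P s e ∧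
      ∃ X : M2 (ResidueField 𝒪), X.trace = 0 ∧ ∀ σ ∈ P.decompositionSubgroup ℚ,
        ∃ t : ResidueField 𝒪, c σ + (s σ * X * s σ⁻¹ - X) = t • Nmat e := by
  have hp : p.Prime := Fact.out
  obtain ⟨e, w, he, hI, hD⟩ := exists_flag_data p hp2 s c r hr hrc hdet hso P hP
  have h2 : (2 : ResidueField 𝒪) ≠ 0 := by
    intro h0
    have h1 : ((2 : ℕ) : ResidueField 𝒪) = 0 := by exact_mod_cast h0
    rw [CharP.cast_eq_zero_iff (ResidueField 𝒪) p] at h1
    exact hp2 ((Nat.prime_dvd_prime_iff_eq hp Nat.prime_two).1 h1)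
  obtain ⟨X, htr, u, hX⟩ := exists_trace_zero_mulVec h2 he w
  refine ⟨e, ⟨he, hI, ?_⟩, X, htr, ?_⟩
  · intro σ hσ a ha
    obtain ⟨z, hz, h1, -, h3⟩ := hD σ hσ a ha
    refine ⟨z, hz, h1, fun v => ?_⟩
    obtain ⟨t₀, -, ht₀, -⟩ := h3 v
    exact ⟨t₀, ht₀⟩
  · intro σ hσ
    obtain ⟨a, ha⟩ := exists_pow p hp σ
    obtain ⟨z, hz, h1, h2', h3⟩ := hD σ hσ a ha
    have ha0 : (a : ResidueField 𝒪) ≠ 0 := by
      intro h0
      rw [CharP.cast_eq_zero_iff (ResidueField 𝒪) p] at h0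
      exact not_dvd_of_pow p hp σ a ha h0
    have hz0 : z ≠ 0 := by
      rintro rfl
      rw [mul_zero] at hz
      exact zero_ne_one hz
    exact fil_of_flag (g := s σ) (g' := s σ⁻¹)
      (by rw [← map_mul, mul_inv_cancel, map_one]) he hX (mul_ne_zero ha0 hz0) h1 h2' h3

end Fermat.Agent.S56.Ord
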