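/-
S56 / ORD, leaf SMOOTH.  `ad⁰` of a representation of finite level is smooth for `lvlAll`.
(Take the normal closure of the field `L`: a primitive element + `exists_stable_finite`, or the
supremum of the stable fields of a finite generating set.)
-/
import Fermat.Agent.S56.Interface
import Fermat.Agent.Lib.Frobenius.Integers

set_option autoImplicit false

namespace Fermat.Agent.S56.Ord

open Fermat.Agent.S55
open Fermat.Agent.S53 (M2 Gal)

/-- every finite extension of `ℚ` in `Qb` lies in a finite stable one -/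
theorem Smooth_exists_stable (F : IntermediateField ℚ Qb) (hF : FiniteDimensional ℚ F) :
    ∃ F' : IntermediateField ℚ Qb, FiniteDimensional ℚ F' ∧ IsStableField F' ∧ F ≤ F' := by
  have hF' : @FiniteDimensional ℚ F _ _ (IntermediateField.module' F) := by
    convert hF
  have : IsGalois ℚ Qb := Fermat.Agent.Lib.Frobenius.isGalois_rat
  refine ⟨IntermediateField.normalClosure ℚ F Qb, ?_, ?_, F.le_normalClosure⟩
  · have : FiniteDimensional ℚ (IntermediateField.normalClosure ℚ F Qb) :=
      normalClosure.is_finiteDimensional ℚ F Qb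
    convert this
  · intro g x hx
    have hn : Normal ℚ (IntermediateField.normalClosure ℚ F Qb) := normalClosure.normal ℚ F Qb
    have := (IntermediateField.normal_iff_forall_map_le'.1 hn) g
    exact this ⟨x, hx, rfl⟩

theorem smooth_Ad0 {k : Type} [Field k] (s : Gal →* M2 k)
    (hfin : ∃ L : IntermediateField ℚ (AlgebraicClosure ℚ), FiniteDimensional ℚ L ∧
      ∀ σ : Gal, (∀ x ∈ L, σ x = x) → s σ = 1) : Smooth lvlAll (Ad0 s) := by
  obtain ⟨L, hL, hs⟩ := hfin
  obtain ⟨F, hF, hst, hle⟩ := Smooth_exists_stable L hL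
  refine ⟨fun m => ⟨F.fixingSubgroup, ⟨F, hF, hst, rfl⟩, fun n hn => ?_⟩⟩
  have h1 : s n = 1 := hs n fun x hx =>
    (IntermediateField.mem_fixingSubgroup_iff F n).1 hn x (hle hx)
  have h2 : s n⁻¹ = 1 := by
    have h3 : s n⁻¹ * s n = 1 := by rw [← map_mul, inv_mul_cancel, map_one]
    rwa [h1, mul_one] at h3
  apply Ad0.ext
  rw [Ad0.mat_smul, h1, h2, one_mul, mul_one]

end Fermat.Agent.S56.Ord
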