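/-
S56 / ORD, TOP of the block:  `OrdStatement`.
-/
import Fermat.Agent.S56.Ord.CardL
import Fermat.Agent.S56.Ord.Line
import Fermat.Agent.S56.Ord.Smooth
import Fermat.Agent.S56.Ord.Mat.Uniq
import Fermat.Agent.S56.Ord.Coh.MemRange

set_option autoImplicit false

namespace Fermat.Agent.S56.Ord

open Fermat.Agent.S55 IsLocalRing
open Fermat.Agent.S53 (M2 Gal MatCont toAdic Dk)

section

variable {𝒪 : Type} [CommRing 𝒪] [IsLocalRing 𝒪]

/-- Membership, for a fixed ordinary line `k e₀` of `s`. -/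
theorem mem_range_fil (q : Nat.Primes) [CharP (ResidueField 𝒪) (q : ℕ)] (hp2 : (q : ℕ) ≠ 2)
    (s : Gal →* M2 (ResidueField 𝒪)) [Smooth lvlAll (Ad0 s)] {e₀ : Fin 2 → ResidueField 𝒪}
    (h₀ : IsOrdLine (q : ℕ) (plc q) s e₀)
    (S : Finset Nat.Primes) (c : Coc (lvlS S) (Ad0 s)) (r : Gal →* M2 (Dk 𝒪)) (hr : MatCont r)
    (hrc : IsLiftOf s c r) (hdet : (toAdic r hr).DetIsCyclotomic (q : ℕ))
    (hso : (toAdic r hr).IsStrictOrdinaryAt (q : ℕ)) :
    locS S (Ad0 s) q 1 c.cls ∈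
      (Hsm.map (𝓝 := lvlLoc q) (filSub q s (Nmat e₀) (filSub_stable h₀)).inclG 1).range := by
  have : Fact (q : ℕ).Prime := ⟨q.2⟩
  have hP : (plc q).LiesOverPrime (q : ℕ) := Loc.Field.plc_liesOverPrime q
  obtain ⟨e, he, X, htr, hX⟩ := exists_line_and_cob (q : ℕ) hp2 s (fun g => (c g).mat) r hr hrc
    hdet hso (plc q) hP
  obtain ⟨τ, hτ, a, ha, ha1, hpa⟩ := exists_inertia_pow (q : ℕ) q.2 hp2 (plc q) hP
  have hak : (a : ResidueField 𝒪) ≠ 1 := by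
    intro h
    apply hpa
    rw [← CharP.cast_eq_zero_iff (ResidueField 𝒪) (q : ℕ), Nat.cast_sub ha1, h, Nat.cast_one,
      sub_self]
  obtain ⟨u, hu⟩ := IsOrdLine.unique h₀ he hτ ha hak
  rw [Coc.locS_cls]
  refine cls_mem_range _ (c.loc q) (ResMod.toRes (ιv q) (Ad0.mk X htr)) fun g => ?_
  obtain ⟨t, ht⟩ := hX (ιv q g) (Loc.Field.ιv_mem_Dq q g)
  rw [mem_filSub]
  refine ⟨t * (u * u), ?_⟩
  rw [hu, Nmat_smul, smul_smul] at ht
  exact ht

end

/-- **ORD.** -/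
theorem ordStatement : OrdStatement := by
  intro 𝒪 _ _ _ p hp _ hp2 s hs
  have : Smooth lvlAll (Ad0 s) := smooth_Ad0 s hs.fin
  set q : Nat.Primes := ⟨p, hp.out⟩ with hq
  have hch : CharP (ResidueField 𝒪) (q : ℕ) := ‹CharP (ResidueField 𝒪) p›
  by_cases hline : ∃ e₀ : Fin 2 → ResidueField 𝒪, IsOrdLine (q : ℕ) (plc q) s e₀
  · obtain ⟨e₀, h₀⟩ := hline
    obtain ⟨hfin, hcard⟩ := card_range_fil_le (p := q) hp2 h₀
    rw [← card_H0_eq_fixLoc] at hcard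
    refine ⟨_, hfin, hcard, fun S c r hr hrc hP => ?_⟩
    exact mem_range_fil q hp2 s h₀ S c r hr hrc hP.1 hP.2
  · refine ⟨⊥, inferInstance, ?_, fun S c r hr hrc hP => ?_⟩
    · rw [AddSubgroup.card_bot]
      have hM : Finite (ResMod (ιv q) (Ad0 s)) := inferInstanceAs (Finite (Ad0 s))
      have h0 : Finite (Hloc q (Ad0 s) 0) := finite_H0 _ _
      exact Nat.mul_pos Nat.card_pos Nat.card_pos
    · exfalso
      obtain ⟨e, he, -⟩ := exists_line_and_cob p hp2 s (fun g => (c g).mat) r hr hrc hP.1 hP.2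
        (plc q) (Loc.Field.plc_liesOverPrime q)
      exact hline ⟨e, he⟩

end Fermat.Agent.S56.Ord
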